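import Fermat.Agent.S16.Eis.E2Level
import Fermat.Agent.S16.Contracts

set_option autoImplicit false

/-!
# S16 (Eis): `ContractEIS p` from `s16e_Er p`
-/

namespace Fermat.Agent.S16.Eis

open UpperHalfPlane CongruenceSubgroup ModularForm EisensteinSeries
open scoped MatrixGroups ModularForm Manifold

noncomputable section

/-- the divisors of `k` divisible by `r` are `r * (divisors of k / r)`. -/
theorem s16e_filter_dvd_divisors {r k : ℕ} (hr : r ≠ 0) (hrk : r ∣ k) :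
    (k.divisors.filter (fun d => r ∣ d)) = (k / r).divisors.image (fun d => r * d) := by
  obtain ⟨k', rfl⟩ := hrk
  rw [Nat.mul_div_cancel_left _ (Nat.pos_of_ne_zero hr)]
  ext d
  simp only [Finset.mem_filter, Nat.mem_divisors, Finset.mem_image]
  constructor
  · rintro ⟨⟨hd, hk⟩, ⟨d', rfl⟩⟩
    refine ⟨d', ⟨?_, ?_⟩, rfl⟩
    · exact (Nat.mul_dvd_mul_iff_left (Nat.pos_of_ne_zero hr)).mp hd
    · exact fun h => hk (by rw [h, mul_zero])
  · rintro ⟨d', ⟨hd, hk⟩, rfl⟩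
    exact ⟨⟨Nat.mul_dvd_mul_left r hd, mul_ne_zero hr hk⟩, dvd_mul_right r d'⟩

theorem s16e_sum_filter_dvd {r k : ℕ} (hr : r ≠ 0) :
    (∑ d ∈ k.divisors with r ∣ d, (d : ℤ))
      = (r : ℤ) * (if r ∣ k then ((ArithmeticFunction.sigma 1 (k / r) : ℕ) : ℤ) else 0) := by
  by_cases hrk : r ∣ k
  · rw [if_pos hrk, s16e_filter_dvd_divisors hr hrk, Finset.sum_image]
    · rw [ArithmeticFunction.sigma_one_apply]
      push_cast
      rw [Finset.mul_sum]
    · intro a _ b _ h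
      exact Nat.eq_of_mul_eq_mul_left (Nat.pos_of_ne_zero hr) h
  · rw [if_neg hrk, mul_zero]
    apply Finset.sum_eq_zero
    intro d hd
    rw [Finset.mem_filter, Nat.mem_divisors] at hd
    exact absurd (dvd_trans hd.2 hd.1.1) hrk

/-- `σ₁(k) - r [r ∣ k] σ₁(k/r) = ∑_{d ∣ k, r ∤ d} d`. -/
theorem s16e_sigma_sub (r k : ℕ) (hr : r ≠ 0) :
    ((ArithmeticFunction.sigma 1 k : ℕ) : ℤ)
        - (r : ℤ) * (if r ∣ k then ((ArithmeticFunction.sigma 1 (k / r) : ℕ) : ℤ) else 0)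
      = Fermat.Agent.S16x.sigmaP r k := by
  rw [← s16e_sum_filter_dvd hr, Fermat.Agent.S16x.sigmaP, ArithmeticFunction.sigma_one_apply]
  push_cast
  rw [← Finset.sum_filter_add_sum_filter_not k.divisors (fun d => r ∣ d) (fun d => (d : ℤ))]
  ring

/-- closed form of the coefficients: `c_r(0) = 1 - r`, `c_r(k) = -24 σ'_r(k)` for `k > 0`. -/
theorem s16e_c_zero (r : ℕ) : s16e_c r 0 = 1 - r := by
  simp [s16e_c, s16e_a]

theorem s16e_c_pos (r k : ℕ) (hr : r ≠ 0) (hk : 0 < k) :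
    s16e_c r k = -24 * ((Fermat.Agent.S16x.sigmaP r k : ℤ) : ℂ) := by
  rw [← s16e_sigma_sub r k hr]
  have hk0 : k ≠ 0 := hk.ne'
  by_cases hrk : r ∣ k
  · have hkr : k / r ≠ 0 := by
      obtain ⟨k', rfl⟩ := hrk
      rw [Nat.mul_div_cancel_left _ (Nat.pos_of_ne_zero hr)]
      exact fun h => hk0 (by rw [h, mul_zero])
    simp only [s16e_c, s16e_a, if_pos hrk, if_neg hk0, if_neg hkr]
    push_cast
    ring
  · simp only [s16e_c, s16e_a, if_neg hrk, if_neg hk0]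
    push_cast
    ring


/-- scalar multiples: coefficients of `a • E_r`. -/
theorem s16e_qCoeff_smul (r : ℕ) [NeZero r] (a : ℂ) (m : ℕ) :
    ModularFormClass.qCoeff (⇑(a • s16e_Er r) : ℍ → ℂ) m = a * s16e_c r m := by
  have h : (⇑(a • s16e_Er r) : ℍ → ℂ) = a • (⇑(s16e_Er r) : ℍ → ℂ) := rfl
  rw [ModularFormClass.qCoeff, h,
    ModularForm.qExpansion_smul one_pos (s16e_one_mem_strictPeriods r) a (s16e_Er r),
    PowerSeries.coeff_smul, s16e_qExpansion_coeff, smul_eq_mul]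

/-- **ContractEIS**: the Eisenstein series `(p-1)/24 + ∑ σ'(k) q^k` on `Γ₀(p)`. -/
theorem s16e_contractEIS (p : ℕ) [Fact p.Prime] : Fermat.Agent.S16x.ContractEIS p := by
  have : NeZero p := ⟨(Fact.out : p.Prime).ne_zero⟩
  refine ⟨(-1 / 24 : ℂ) • s16e_Er p, ?_, ?_⟩
  · rw [s16e_qCoeff_smul, s16e_c_zero]
    ring
  · intro k hk
    rw [s16e_qCoeff_smul, s16e_c_pos p k (NeZero.ne p) hk]
    ring

/-- The normalised form `Y_r = (1-r)⁻¹ (E₂(z) - r E₂(rz)) = 1 + (24/(r-1)) ∑ σ'_r(k) q^k`. -/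
def s16e_Y (r : ℕ) [NeZero r] : ModularForm (Gamma0 r) 2 := ((1 - r : ℂ)⁻¹) • s16e_Er r

theorem s16e_Y_qCoeff_zero (r : ℕ) [NeZero r] (hr : r ≠ 1) :
    ModularFormClass.qCoeff (⇑(s16e_Y r) : ℍ → ℂ) 0 = 1 := by
  rw [s16e_Y, s16e_qCoeff_smul, s16e_c_zero]
  have h : (1 - r : ℂ) ≠ 0 := by
    intro h
    apply hr
    have : (r : ℂ) = 1 := by linear_combination -h
    exact_mod_cast this
  exact inv_mul_cancel₀ h

theorem s16e_Y_qCoeff_pos (r : ℕ) [NeZero r] (k : ℕ) (hk : 0 < k) :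
    ModularFormClass.qCoeff (⇑(s16e_Y r) : ℍ → ℂ) k
      = (24 / ((r : ℂ) - 1)) * ((Fermat.Agent.S16x.sigmaP r k : ℤ) : ℂ) := by
  rw [s16e_Y, s16e_qCoeff_smul, s16e_c_pos r k (NeZero.ne r) hk]
  by_cases h : (1 - r : ℂ) = 0
  · have h' : (r : ℂ) - 1 = 0 := by linear_combination -h
    rw [h, h']
    simp
  · have h' : (r : ℂ) - 1 ≠ 0 := fun h' => h (by linear_combination -h')
    field_simp
    ring

/-- `σ'_r(r k) = σ'_r(k)`: the `U_r`-eigen property on coefficients. -/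
theorem s16e_sigmaP_mul (r k : ℕ) (hr : r.Prime) (hk : 0 < k) :
    Fermat.Agent.S16x.sigmaP r (r * k) = Fermat.Agent.S16x.sigmaP r k := by
  unfold Fermat.Agent.S16x.sigmaP
  have hfilter : (r * k).divisors.filter (fun d => ¬ r ∣ d) = k.divisors.filter (fun d => ¬ r ∣ d) := by
    ext d
    simp only [Finset.mem_filter, Nat.mem_divisors]
    constructor
    · rintro ⟨⟨hd, _⟩, hrd⟩
      refine ⟨⟨?_, hk.ne'⟩, hrd⟩
      exact (Nat.Coprime.dvd_mul_left ((Nat.Prime.coprime_iff_not_dvd hr).mpr hrd).symm).mp hd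
    · rintro ⟨⟨hd, hk0⟩, hrd⟩
      exact ⟨⟨dvd_mul_of_dvd_right hd r, mul_ne_zero hr.ne_zero hk0⟩, hrd⟩
  rw [hfilter]

end

end Fermat.Agent.S16.Eis
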