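import Mathlib
import Fermat.Prelude.Def_ModularForm_HeckeOperator

set_option autoImplicit false

/-!
# S16 (Eis), chunk B1: the weight-2 Eisenstein series `E₂(z) - r E₂(rz)` on `Γ₀(r)`
-/

namespace Fermat.Agent.S16.Eis

open UpperHalfPlane CongruenceSubgroup ModularForm EisensteinSeries Matrix.SpecialLinearGroup
open scoped MatrixGroups ModularForm Manifold

noncomputable section

/-- The raw function `E₂ - E₂ ∣[2] diag(r,1)`, i.e. `z ↦ E₂(z) - r E₂(rz)`. -/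
def s16e_fun (r : ℕ) : ℍ → ℂ := E2 - (E2 ∣[(2 : ℤ)] heckeDiagMatrix r)

theorem s16e_fun_apply {r : ℕ} (hr : r ≠ 0) (z : ℍ) :
    s16e_fun r z = E2 z - r * E2 (heckeDiagMatrix r • z) := by
  simp [s16e_fun, slash_heckeDiagMatrix_apply 2 hr]

/-- The companion matrix `γ' = [[a, r b],[c/r, d]]` of `γ ∈ Γ₀(r)`. -/
theorem s16e_exists_companion {r : ℕ} (hr : r ≠ 0) (γ : SL(2, ℤ)) (hγ : γ ∈ Gamma0 r) :
    ∃ γ' : SL(2, ℤ), (r : ℤ) * γ' 1 0 = γ 1 0 ∧ γ' 1 1 = γ 1 1 ∧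
      heckeDiagMatrix r * (mapGL ℝ γ) = (mapGL ℝ γ') * heckeDiagMatrix r := by
  have hγ' : ((γ 1 0 : ℤ) : ZMod r) = 0 := Gamma0_mem.mp hγ
  obtain ⟨c', hc'⟩ : (r : ℤ) ∣ γ 1 0 := (ZMod.intCast_zmod_eq_zero_iff_dvd _ _).mp hγ'
  have hdet : γ 0 0 * γ 1 1 - γ 0 1 * γ 1 0 = 1 := by
    have := γ.det_coe
    rw [Matrix.det_fin_two] at this
    exact this
  have hdet' : Matrix.det !![γ 0 0, (r : ℤ) * γ 0 1; c', γ 1 1] = 1 := by
    rw [Matrix.det_fin_two_of]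
    rw [hc'] at hdet
    linarith
  obtain ⟨γ', hγ'00, hγ'01, hγ'10, hγ'11⟩ : ∃ γ' : SL(2, ℤ), γ' 0 0 = γ 0 0 ∧
      γ' 0 1 = (r : ℤ) * γ 0 1 ∧ γ' 1 0 = c' ∧ γ' 1 1 = γ 1 1 :=
    ⟨⟨!![γ 0 0, (r : ℤ) * γ 0 1; c', γ 1 1], hdet'⟩, rfl, rfl, rfl, rfl⟩
  refine ⟨γ', ?_, hγ'11, ?_⟩
  · rw [hγ'10, hc']
  · apply Units.ext
    have key : ∀ (g : SL(2, ℤ)) (i j : Fin 2),
        ((mapGL ℝ g : GL (Fin 2) ℝ) : Matrix (Fin 2) (Fin 2) ℝ) i j = ((g i j : ℤ) : ℝ) := by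
      intro g i j; simp
    ext i j
    rw [Units.val_mul, Units.val_mul, Matrix.mul_apply, Matrix.mul_apply, Fin.sum_univ_two,
      Fin.sum_univ_two, val_heckeDiagMatrix hr]
    simp only [key]
    fin_cases i <;> fin_cases j <;> simp [hc', hγ'00, hγ'01, hγ'10, hγ'11] <;> ring


/-- `D2 γ' ∣[2] diag(r,1) = D2 γ` for the companion matrix. -/
theorem s16e_D2_slash_diag {r : ℕ} (hr : r ≠ 0) (γ γ' : SL(2, ℤ))
    (h10 : (r : ℤ) * γ' 1 0 = γ 1 0) (h11 : γ' 1 1 = γ 1 1) :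
    (D2 γ') ∣[(2 : ℤ)] heckeDiagMatrix r = D2 γ := by
  ext z
  rw [slash_heckeDiagMatrix_apply 2 hr]
  simp only [D2]
  have hr' : (r : ℂ) ≠ 0 := by exact_mod_cast hr
  have hden : denom (γ' : GL (Fin 2) ℝ) ((heckeDiagMatrix r • z : ℍ) : ℂ)
      = denom (γ : GL (Fin 2) ℝ) (z : ℂ) := by
    rw [coe_heckeDiagMatrix_smul hr]
    simp only [denom]
    have e1 : ((γ : GL (Fin 2) ℝ) : Matrix (Fin 2) (Fin 2) ℝ) 1 0 = ((γ 1 0 : ℤ) : ℝ) := by simp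
    have e2 : ((γ : GL (Fin 2) ℝ) : Matrix (Fin 2) (Fin 2) ℝ) 1 1 = ((γ 1 1 : ℤ) : ℝ) := by simp
    have e3 : ((γ' : GL (Fin 2) ℝ) : Matrix (Fin 2) (Fin 2) ℝ) 1 0 = ((γ' 1 0 : ℤ) : ℝ) := by simp
    have e4 : ((γ' : GL (Fin 2) ℝ) : Matrix (Fin 2) (Fin 2) ℝ) 1 1 = ((γ' 1 1 : ℤ) : ℝ) := by simp
    rw [e1, e2, e3, e4, ← h10, h11]
    push_cast
    ring
  rw [hden, ← h10]
  push_cast
  have hd := denom_ne_zero (γ : GL (Fin 2) ℝ) z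
  field_simp

/-- `E₂ - E₂ ∣[2] diag(r,1)` is invariant under `Γ₀(r)`. -/
theorem s16e_fun_slash {r : ℕ} (hr : r ≠ 0) (γ : SL(2, ℤ)) (hγ : γ ∈ Gamma0 r) :
    s16e_fun r ∣[(2 : ℤ)] γ = s16e_fun r := by
  obtain ⟨γ', h10, h11, hmat⟩ := s16e_exists_companion hr γ hγ
  have h1 : (E2 ∣[(2 : ℤ)] heckeDiagMatrix r) ∣[(2 : ℤ)] γ
      = (E2 ∣[(2 : ℤ)] γ') ∣[(2 : ℤ)] heckeDiagMatrix r := by
    rw [SL_slash, SL_slash, ← SlashAction.slash_mul, ← SlashAction.slash_mul]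
    exact congrArg (fun g : GL (Fin 2) ℝ => E2 ∣[(2 : ℤ)] g) hmat
  have h2 : s16e_fun r ∣[(2 : ℤ)] γ
      = E2 ∣[(2 : ℤ)] γ - (E2 ∣[(2 : ℤ)] heckeDiagMatrix r) ∣[(2 : ℤ)] γ := by
    rw [s16e_fun, sub_eq_add_neg, SlashAction.add_slash, SlashAction.neg_slash, ← sub_eq_add_neg]
  rw [h2, h1, E2_slash_action γ, E2_slash_action γ']
  have h3 : (E2 - (1 / (2 * riemannZeta 2)) • D2 γ') ∣[(2 : ℤ)] heckeDiagMatrix r
      = E2 ∣[(2 : ℤ)] heckeDiagMatrix r - (1 / (2 * riemannZeta 2)) • D2 γ := by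
    rw [sub_eq_add_neg, SlashAction.add_slash, SlashAction.neg_slash, ModularForm.smul_slash,
      s16e_D2_slash_diag hr γ γ' h10 h11, ← sub_eq_add_neg]
    simp [σ_heckeDiagMatrix]
  rw [h3, s16e_fun]
  abel


/-- `D2 γ` is bounded at `i∞`. -/
theorem s16e_isBoundedAtImInfty_D2 (γ : SL(2, ℤ)) : IsBoundedAtImInfty (D2 γ) := by
  rw [isBoundedAtImInfty_iff]
  refine ⟨2 * Real.pi, 1, fun z hz => ?_⟩
  simp only [D2]
  by_cases hc : (γ 1 0 : ℤ) = 0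
  · simp [hc, Real.pi_pos.le]
  · have hcR : ((γ 1 0 : ℤ) : ℝ) ≠ 0 := by exact_mod_cast hc
    have hden : |((γ 1 0 : ℤ) : ℝ)| ≤ ‖denom (γ : GL (Fin 2) ℝ) (z : ℂ)‖ := by
      have him : (denom (γ : GL (Fin 2) ℝ) (z : ℂ)).im = ((γ 1 0 : ℤ) : ℝ) * z.im := by
        simp [denom]
      calc |((γ 1 0 : ℤ) : ℝ)| ≤ |((γ 1 0 : ℤ) : ℝ)| * z.im := by
            nlinarith [abs_nonneg ((γ 1 0 : ℤ) : ℝ)]
        _ = |(denom (γ : GL (Fin 2) ℝ) (z : ℂ)).im| := by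
            rw [him, abs_mul, abs_of_pos z.im_pos]
        _ ≤ ‖denom (γ : GL (Fin 2) ℝ) (z : ℂ)‖ := Complex.abs_im_le_norm _
    have hpos : 0 < ‖denom (γ : GL (Fin 2) ℝ) (z : ℂ)‖ :=
      lt_of_lt_of_le (abs_pos.mpr hcR) hden
    rw [norm_div, div_le_iff₀ hpos]
    have h1 : ‖(2 : ℂ) * Real.pi * Complex.I * ((γ 1 0 : ℤ) : ℂ)‖
        = 2 * Real.pi * |((γ 1 0 : ℤ) : ℝ)| := by
      simp [abs_of_pos Real.pi_pos]
    rw [h1]
    have := Real.pi_pos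
    nlinarith

/-- Hermite reduction: for an integral matrix with nonzero first column there is `δ ∈ SL(2,ℤ)`
such that `δ⁻¹ M` is upper triangular. -/
theorem s16e_exists_upper (x y : ℤ) (hxy : x ≠ 0 ∨ y ≠ 0) :
    ∃ δ : SL(2, ℤ), -(δ 1 0) * x + (δ 0 0) * y = 0 := by
  have hg : (Int.gcd x y : ℤ) ≠ 0 := by
    intro h
    have h0 : Int.gcd x y = 0 := by exact_mod_cast h
    rw [Int.gcd_eq_zero_iff] at h0
    rcases hxy with h | h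
    · exact h h0.1
    · exact h h0.2
  have hgpos : 0 < Int.gcd x y := Nat.pos_of_ne_zero (by exact_mod_cast hg)
  have hcop : IsCoprime (x / (Int.gcd x y : ℤ)) (y / (Int.gcd x y : ℤ)) := by
    rw [Int.isCoprime_iff_gcd_eq_one]
    exact Int.gcd_div_gcd_div_gcd hgpos
  obtain ⟨δ, h0, h1⟩ := IsCoprime.exists_SL2_col hcop 0
  refine ⟨δ, ?_⟩
  rw [h0, h1]
  have hx : (Int.gcd x y : ℤ) * (x / (Int.gcd x y : ℤ)) = x :=
    Int.mul_ediv_cancel' (Int.gcd_dvd_left x y)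
  have hy : (Int.gcd x y : ℤ) * (y / (Int.gcd x y : ℤ)) = y :=
    Int.mul_ediv_cancel' (Int.gcd_dvd_right x y)
  generalize (x / (Int.gcd x y : ℤ)) = a at hx ⊢
  generalize (y / (Int.gcd x y : ℤ)) = b at hy ⊢
  generalize (Int.gcd x y : ℤ) = g at hx hy
  rw [← hx, ← hy]
  ring


theorem s16e_isBoundedAtImInfty_E2_slash (γ : SL(2, ℤ)) :
    IsBoundedAtImInfty (E2 ∣[(2 : ℤ)] γ) := by
  rw [E2_slash_action, sub_eq_add_neg]
  exact isBoundedAtImInfty_E2.add (((s16e_isBoundedAtImInfty_D2 γ).const_smul_left _).neg_left)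

/-- All `SL(2,ℤ)`-translates of `E₂ ∣[2] diag(r,1)` are bounded at `i∞`. -/
theorem s16e_isBoundedAtImInfty_diag_slash {r : ℕ} (hr : r ≠ 0) (γ : SL(2, ℤ)) :
    IsBoundedAtImInfty ((E2 ∣[(2 : ℤ)] heckeDiagMatrix r) ∣[(2 : ℤ)] γ) := by
  have hdet : γ 0 0 * γ 1 1 - γ 0 1 * γ 1 0 = 1 := by
    have := γ.det_coe
    rw [Matrix.det_fin_two] at this
    exact this
  have hne : (r : ℤ) * γ 0 0 ≠ 0 ∨ γ 1 0 ≠ 0 := by
    by_contra h
    simp only [not_or, not_not] at h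
    have hr' : (r : ℤ) ≠ 0 := by exact_mod_cast hr
    have h00 : γ 0 0 = 0 := by
      rcases mul_eq_zero.mp h.1 with h' | h'
      · exact absurd h' hr'
      · exact h'
    rw [h00, h.2] at hdet
    simp at hdet
  obtain ⟨δ, hδ⟩ := s16e_exists_upper ((r : ℤ) * γ 0 0) (γ 1 0) hne
  set β : GL (Fin 2) ℝ := (mapGL ℝ δ)⁻¹ * (heckeDiagMatrix r * mapGL ℝ γ) with hβ
  have hM : heckeDiagMatrix r * mapGL ℝ γ = mapGL ℝ δ * β := by
    rw [hβ, mul_inv_cancel_left]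
  have hβ10 : β 1 0 = 0 := by
    have key : ∀ (g : SL(2, ℤ)) (i j : Fin 2),
        ((mapGL ℝ g : GL (Fin 2) ℝ) : Matrix (Fin 2) (Fin 2) ℝ) i j = ((g i j : ℤ) : ℝ) := by
      intro g i j; simp
    have hinv : (mapGL ℝ δ)⁻¹ = mapGL ℝ δ⁻¹ := (map_inv _ _).symm
    rw [hβ, hinv]
    show ((mapGL ℝ δ⁻¹ * (heckeDiagMatrix r * mapGL ℝ γ) : GL (Fin 2) ℝ) :
      Matrix (Fin 2) (Fin 2) ℝ) 1 0 = 0
    rw [Units.val_mul, Units.val_mul, Matrix.mul_apply, Fin.sum_univ_two, Matrix.mul_apply,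
      Matrix.mul_apply, Fin.sum_univ_two, Fin.sum_univ_two, val_heckeDiagMatrix hr]
    simp only [key]
    rw [Matrix.SpecialLinearGroup.SL2_inv_expl]
    simp
    have := congrArg (fun t : ℤ => (t : ℝ)) hδ
    push_cast at this
    linarith
  have h1 : (E2 ∣[(2 : ℤ)] heckeDiagMatrix r) ∣[(2 : ℤ)] γ = (E2 ∣[(2 : ℤ)] δ) ∣[(2 : ℤ)] β := by
    rw [SL_slash, SL_slash, ← SlashAction.slash_mul, ← SlashAction.slash_mul]
    exact congrArg (fun g : GL (Fin 2) ℝ => E2 ∣[(2 : ℤ)] g) hM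
  rw [h1]
  exact (s16e_isBoundedAtImInfty_E2_slash δ).slash 2 hβ10

theorem s16e_isBoundedAtImInfty_slash {r : ℕ} (hr : r ≠ 0) (γ : SL(2, ℤ)) :
    IsBoundedAtImInfty (s16e_fun r ∣[(2 : ℤ)] γ) := by
  have h2 : s16e_fun r ∣[(2 : ℤ)] γ
      = E2 ∣[(2 : ℤ)] γ + -((E2 ∣[(2 : ℤ)] heckeDiagMatrix r) ∣[(2 : ℤ)] γ) := by
    rw [s16e_fun, sub_eq_add_neg, SlashAction.add_slash, SlashAction.neg_slash]
  rw [h2]
  exact (s16e_isBoundedAtImInfty_E2_slash γ).add (s16e_isBoundedAtImInfty_diag_slash hr γ).neg_left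


/-- **The weight-2 Eisenstein series `E₂(z) - r E₂(rz)` as a modular form on `Γ₀(r)`.** -/
def s16e_Er (r : ℕ) [NeZero r] : ModularForm (Gamma0 r) 2 where
  toFun := s16e_fun r
  slash_action_eq' := by
    rintro _ ⟨γ, hγ, rfl⟩
    have := s16e_fun_slash (NeZero.ne r) γ hγ
    rwa [SL_slash] at this
  holo' := E2_mdifferentiable.sub (E2_mdifferentiable.slash 2 _)
  bdd_at_cusps' := by
    intro c hc
    have hc' : IsCusp c 𝒮ℒ := (Subgroup.IsArithmetic.isCusp_iff_isCusp_SL2Z _).mp hc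
    rw [OnePoint.isBoundedAt_iff_forall_SL2Z hc']
    intro γ _
    exact s16e_isBoundedAtImInfty_slash (NeZero.ne r) γ

@[simp] theorem s16e_Er_coe (r : ℕ) [NeZero r] : (⇑(s16e_Er r) : ℍ → ℂ) = s16e_fun r := rfl

theorem s16e_Er_apply (r : ℕ) [NeZero r] (z : ℍ) :
    s16e_Er r z = E2 z - r * E2 (heckeDiagMatrix r • z) :=
  s16e_fun_apply (NeZero.ne r) z


/-! ### `q`-expansion -/

open scoped ArithmeticFunction.sigma in
/-- the coefficients of `E₂`. -/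
def s16e_a (m : ℕ) : ℂ := if m = 0 then 1 else -24 * (ArithmeticFunction.sigma 1 m : ℂ)

/-- the coefficients of `E₂(z) - r E₂(rz)`. -/
def s16e_c (r m : ℕ) : ℂ := s16e_a m - r * (if r ∣ m then s16e_a (m / r) else 0)

local notation "𝕢" => Function.Periodic.qParam 1

theorem s16e_qParam_diag {r : ℕ} (hr : r ≠ 0) (τ : ℍ) :
    𝕢 ((heckeDiagMatrix r • τ : ℍ) : ℂ) = 𝕢 (τ : ℂ) ^ r := by
  rw [coe_heckeDiagMatrix_smul hr]
  simp only [Function.Periodic.qParam, Complex.ofReal_one, div_one]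
  rw [← Complex.exp_nat_mul]
  congr 1
  ring

theorem s16e_hasSum_E2 (τ : ℍ) : HasSum (fun m : ℕ ↦ s16e_a m • 𝕢 (τ : ℂ) ^ m) (E2 τ) := by
  have := hasSum_qExpansion_E2 (z := τ)
  have hq : 𝕢 (τ : ℂ) = Complex.exp (2 * Real.pi * Complex.I * τ) := by
    simp [Function.Periodic.qParam]
  rw [hq]
  simpa [s16e_a] using this

theorem s16e_hasSum_E2_diag {r : ℕ} (hr : r ≠ 0) (τ : ℍ) :
    HasSum (fun n : ℕ ↦ (if r ∣ n then s16e_a (n / r) else 0) • 𝕢 (τ : ℂ) ^ n)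
      (E2 (heckeDiagMatrix r • τ)) := by
  have h1 := s16e_hasSum_E2 (heckeDiagMatrix r • τ)
  rw [s16e_qParam_diag hr] at h1
  have hinj : Function.Injective (fun m : ℕ => r * m) := fun a b h =>
    Nat.eq_of_mul_eq_mul_left (Nat.pos_of_ne_zero hr) h
  rw [← hinj.hasSum_iff]
  · convert h1 using 2 with m
    simp only [Function.comp_apply, dvd_mul_right, if_true, Nat.mul_div_cancel_left _
      (Nat.pos_of_ne_zero hr), pow_mul]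
  · intro n hn
    have : ¬ r ∣ n := by
      rintro ⟨m, rfl⟩
      exact hn ⟨m, rfl⟩
    simp [this]

theorem s16e_hasSum {r : ℕ} (hr : r ≠ 0) (τ : ℍ) :
    HasSum (fun m : ℕ ↦ s16e_c r m • 𝕢 (τ : ℂ) ^ m) (s16e_fun r τ) := by
  rw [s16e_fun_apply hr]
  have h1 := s16e_hasSum_E2 τ
  have h2 := (s16e_hasSum_E2_diag hr τ).mul_left (r : ℂ)
  have hfun : (fun m : ℕ ↦ s16e_c r m • 𝕢 (τ : ℂ) ^ m)
      = fun m : ℕ ↦ s16e_a m • 𝕢 (τ : ℂ) ^ m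
        - (r : ℂ) * ((if r ∣ m then s16e_a (m / r) else 0) • 𝕢 (τ : ℂ) ^ m) := by
    funext m
    show (s16e_a m - r * (if r ∣ m then s16e_a (m / r) else 0)) * 𝕢 (τ : ℂ) ^ m
      = s16e_a m * 𝕢 (τ : ℂ) ^ m - r * ((if r ∣ m then s16e_a (m / r) else 0) * 𝕢 (τ : ℂ) ^ m)
    ring
  rw [hfun]
  exact h1.sub h2

theorem s16e_one_mem_strictPeriods (r : ℕ) :
    (1 : ℝ) ∈ ((Gamma0 r : Subgroup SL(2, ℤ)) : Subgroup (GL (Fin 2) ℝ)).strictPeriods := by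
  rw [strictPeriods_Gamma0]
  exact AddSubgroup.mem_zmultiples 1

theorem s16e_qExpansion_coeff (r : ℕ) [NeZero r] (m : ℕ) :
    (qExpansion 1 (s16e_Er r)).coeff m = s16e_c r m :=
  (ModularFormClass.qExpansion_coeff_unique (f := s16e_Er r) one_pos
    (s16e_one_mem_strictPeriods r) (fun τ => by
      simpa using s16e_hasSum (NeZero.ne r) τ) m).symm

end

end Fermat.Agent.S16.Eis
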