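import Fermat.Agent.S16.Eis.Contract
import Fermat.Prelude.Def_ModularForm_HeckeOperatorForms
import Fermat.Prelude.Thm_ModularFormClass_qCoeff_heckeU
import Fermat.Prelude.Thm_UpperHalfPlane_eq_of_forall_qCoeff_eq

set_option autoImplicit false

/-!
# S16 (Eis): `U_r Y_r = Y_r` as functions on the upper half plane
-/

namespace Fermat.Agent.S16.Eis

open UpperHalfPlane CongruenceSubgroup ModularForm EisensteinSeries
open scoped MatrixGroups ModularForm Manifold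

noncomputable section

/-- coefficients of `Y_r` are `U_r`-stable. -/
theorem s16e_Y_qCoeff_mul (r : ℕ) [NeZero r] (hr : r.Prime) (n : ℕ) :
    ModularFormClass.qCoeff (⇑(s16e_Y r) : ℍ → ℂ) (n * r)
      = ModularFormClass.qCoeff (⇑(s16e_Y r) : ℍ → ℂ) n := by
  rcases Nat.eq_zero_or_pos n with rfl | hn
  · rw [Nat.zero_mul]
  · rw [s16e_Y_qCoeff_pos r (n * r) (Nat.mul_pos hn hr.pos), s16e_Y_qCoeff_pos r n hn,
      Nat.mul_comm n r, s16e_sigmaP_mul r n hr hn]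

/-- `U_r Y_r = Y_r` as functions. -/
theorem s16e_heckeU_Y (r : ℕ) [NeZero r] (hr : r.Prime) :
    ModularForm.heckeU 2 r (⇑(s16e_Y r) : ℍ → ℂ) = (⇑(s16e_Y r) : ℍ → ℂ) := by
  have hΓ : (1 : ℝ) ∈ (Subgroup.map (Matrix.SpecialLinearGroup.mapGL ℝ) (Gamma0 r)).strictPeriods :=
    s16e_one_mem_strictPeriods r
  have hc : Fact (IsCusp OnePoint.infty
      (Subgroup.map (Matrix.SpecialLinearGroup.mapGL ℝ) (Gamma0 r))) :=
    ⟨Subgroup.isCusp_of_mem_strictPeriods one_pos hΓ⟩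
  have hcoe : (⇑(ModularForm.heckeULin 2 (dvd_refl r) (s16e_Y r)) : ℍ → ℂ)
      = ModularForm.heckeU 2 r (⇑(s16e_Y r) : ℍ → ℂ) := rfl
  rw [← hcoe]
  refine UpperHalfPlane.eq_of_forall_qCoeff_eq
    (SlashInvariantFormClass.periodic_comp_ofComplex _ hΓ) (ModularFormClass.holo _)
    (ModularFormClass.bdd_at_infty _)
    (SlashInvariantFormClass.periodic_comp_ofComplex _ hΓ) (ModularFormClass.holo _)
    (ModularFormClass.bdd_at_infty _) ?_
  intro n
  rw [hcoe, ModularFormClass.qCoeff_heckeU (s16e_Y r) hΓ hr.ne_zero n,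
    ModularForm.coeffHeckeU_apply, s16e_Y_qCoeff_mul r hr n]

/-- Pointwise form: `r⁻¹ ∑_{j<r} Y_r((z+j)/r) = Y_r(z)`. -/
theorem s16e_heckeU_Y_apply (r : ℕ) [NeZero r] (hr : r.Prime) (τ : ℍ) :
    (r : ℂ)⁻¹ * ∑ j ∈ Finset.range r, s16e_Y r (ModularForm.heckeMatrix r j • τ) = s16e_Y r τ := by
  rw [← ModularForm.heckeU_apply 2 hr.ne_zero, s16e_heckeU_Y r hr]

end

end Fermat.Agent.S16.Eis
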